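/-
S19lib / Iface  (helper3, architect)  — Project FF

Interface of the proof of S19 (finite flat models of `J₀(N)[ℓ^k]`, `ℓ ∤ N`).
Plan: `plans/S19_FF.md` on origin/helper3.  Everything here is a definition or a trivial lemma.

* `A0Analytic`      : maps `𝔪_A^ι → A` approximable to every order by polynomials over `A0 = A^I`
                      (block FF-An proves the calculus).
* `AnalyticGerm`    : what the geometry delivers on `J = JZero N` (blocks FF-A … FF-E): a subgroup `K`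
                      (kernel of reduction) with coordinates `𝔪_A^g ≃ K`, analytic group law.
* `HopfOrder`       : an order of `Map_U(Γ, ℚ̄)` over a subring `R ⊆ ℚ̄`, closed under `Δ` and `S`
                      (FF-F produces one over `A0`, FF-G descends it to `ℤ_(ℓ)`, FF-H turns it into
                      the Hopf algebra of S19).
-/
import Mathlib
import Fermat.Statements.S19

set_option autoImplicit false

noncomputable section

namespace Fermat.Agent.S19lib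

local notation "Qb" => AlgebraicClosure ℚ
local notation "GQ" => (AlgebraicClosure ℚ ≃ₐ[ℚ] AlgebraicClosure ℚ)

/-! ### the valuation ring, its inertia-fixed subring, smallness -/

section Basic

variable (A : ValuationSubring Qb)

/-- inertia group of `A` inside `G_ℚ` -/
abbrev IA : Subgroup GQ := A.inertiaSubgroupIn ℚ

/-- decomposition group of `A` inside `G_ℚ` -/
abbrev DA : Subgroup GQ := A.decompositionSubgroup ℚ

/-- the maximal ideal of `A`, as a subset of `ℚ̄` -/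
def mSet : Set Qb := {a | A.valuation a < 1}

/-- the inertia-fixed elements of `A` (a discrete valuation ring with uniformizer `ℓ`) -/
def A0 : Subring Qb where
  carrier := {a | a ∈ A ∧ ∀ σ ∈ IA A, σ a = a}
  mul_mem' := fun {a b} ha hb => ⟨A.mul_mem _ _ ha.1 hb.1, fun σ hσ => by
    rw [map_mul, ha.2 σ hσ, hb.2 σ hσ]⟩
  one_mem' := ⟨A.one_mem, fun σ _ => map_one σ⟩
  add_mem' := fun {a b} ha hb => ⟨A.add_mem _ _ ha.1 hb.1, fun σ hσ => by
    rw [map_add, ha.2 σ hσ, hb.2 σ hσ]⟩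
  zero_mem' := ⟨A.zero_mem, fun σ _ => map_zero σ⟩
  neg_mem' := fun {a} ha => ⟨A.neg_mem _ ha.1, fun σ hσ => by rw [map_neg, ha.2 σ hσ]⟩

/-- the decomposition-fixed elements of `A` -/
def AD : Subring Qb where
  carrier := {a | a ∈ A ∧ ∀ σ ∈ DA A, σ a = a}
  mul_mem' := fun {a b} ha hb => ⟨A.mul_mem _ _ ha.1 hb.1, fun σ hσ => by
    rw [map_mul, ha.2 σ hσ, hb.2 σ hσ]⟩
  one_mem' := ⟨A.one_mem, fun σ _ => map_one σ⟩
  add_mem' := fun {a b} ha hb => ⟨A.add_mem _ _ ha.1 hb.1, fun σ hσ => by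
    rw [map_add, ha.2 σ hσ, hb.2 σ hσ]⟩
  zero_mem' := ⟨A.zero_mem, fun σ _ => map_zero σ⟩
  neg_mem' := fun {a} ha => ⟨A.neg_mem _ ha.1, fun σ hσ => by rw [map_neg, ha.2 σ hσ]⟩

/-- `ℤ_(ℓ)` inside `ℚ̄` -/
def RQ (ℓ : ℕ) : Subring Qb := (GaloisRep.ratLocalizedAt ℓ).map (algebraMap ℚ Qb)

/-- `d ∈ (ℓ, u_i : i)^M` (ideal of `A`), phrased with the valuation: for every bound `c` of the
valuations of `ℓ` and of the `u i`, `v(d) ≤ c^M`. -/
def SmallTo {ι : Type} (ℓ : ℕ) (u : ι → Qb) (M : ℕ) (d : Qb) : Prop :=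
  ∀ c : A.ValueGroup, A.valuation ((ℓ : ℕ) : Qb) ≤ c → (∀ i, A.valuation (u i) ≤ c) →
    A.valuation d ≤ c ^ M

/-- **`A0`-analytic maps** `𝔪_A^ι → A`: for every order `M` there is a polynomial with coefficients
in `A0` agreeing with `f` modulo `(ℓ, u)^M` at every `u ∈ 𝔪_A^ι`.  (The values of `f` outside `𝔪_A^ι`
are irrelevant.) -/
def A0Analytic {ι : Type} (ℓ : ℕ) (f : (ι → Qb) → Qb) : Prop :=
  ∀ M : ℕ, ∃ P : MvPolynomial ι Qb, (∀ m, P.coeff m ∈ A0 A) ∧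
    ∀ u : ι → Qb, (∀ i, u i ∈ mSet A) → SmallTo A ℓ u M (f u - MvPolynomial.eval u P)

end Basic

/-! ### the geometric deliverable -/

/-- **Analytic group germ** in a `G_ℚ`-module `J` (for us `J = JZero N`, `K` = kernel of the reduction
map at `A`, `Θ u = [Σ P_i − E₀]` with `t_i(P_i) = u_i`). -/
structure AnalyticGerm (A : ValuationSubring Qb) (ℓ : ℕ) (J : Type) [AddCommGroup J]
    [DistribMulAction GQ J] where
  /-- the dimension -/
  g : ℕ
  /-- the kernel of reduction -/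
  K : AddSubgroup J
  /-- the parametrisation (only its values on `𝔪_A^g` matter) -/
  Θ : (Fin g → Qb) → J
  /-- the coordinates (only their values on `K` matter) -/
  coord : J → Fin g → Qb
  Θ_mem : ∀ u : Fin g → Qb, (∀ i, u i ∈ mSet A) → Θ u ∈ K
  coord_mem : ∀ x ∈ K, ∀ i, coord x i ∈ mSet A
  coord_Θ : ∀ u : Fin g → Qb, (∀ i, u i ∈ mSet A) → coord (Θ u) = u
  Θ_coord : ∀ x ∈ K, Θ (coord x) = x
  /-- `K` is stable under the decomposition group -/
  smul_mem : ∀ σ ∈ DA A, ∀ x ∈ K, σ • x ∈ K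
  /-- the coordinates are inertia-equivariant -/
  Θ_smul : ∀ σ ∈ IA A, ∀ u : Fin g → Qb, (∀ i, u i ∈ mSet A) → Θ (fun i => σ (u i)) = σ • Θ u
  /-- the group law is analytic -/
  add_analytic : ∀ i, A0Analytic A ℓ
    (fun w : Fin g ⊕ Fin g → Qb => coord (Θ (fun j => w (Sum.inl j)) + Θ (fun j => w (Sum.inr j))) i)
  /-- negation is analytic -/
  neg_analytic : ∀ i, A0Analytic A ℓ (fun u : Fin g → Qb => coord (- Θ u) i)
  /-- conjugation by the decomposition group is analytic (identity for inertia) -/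
  conj_analytic : ∀ σ ∈ DA A, ∀ i, A0Analytic A ℓ
    (fun u : Fin g → Qb => σ (coord (σ⁻¹ • Θ u) i))

/-- every point has an inertia-fixed point in its residue polydisc -/
def HasUnramifiedCentres {A : ValuationSubring Qb} {ℓ : ℕ} {J : Type} [AddCommGroup J]
    [DistribMulAction GQ J] (G : AnalyticGerm A ℓ J) : Prop :=
  ∀ x : J, ∃ y : J, (∀ σ ∈ IA A, σ • y = y) ∧ x - y ∈ G.K

/-- **Geometry (blocks FF-A … FF-D)**, at every level prime to `ℓ` (the tree knows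
`g(FBar N) = g(FRes A N)` there: `S37lib.B3.exists_genus_level` fed with
`S37lib.B3.reductionInputsModL`). -/
def GeomStmt : Prop :=
  ∀ (N : ℕ) [NeZero N] (ℓ : ℕ) [Fact ℓ.Prime], ¬ ℓ ∣ N →
    ∀ A : ValuationSubring Qb, A.LiesOverPrime ℓ →
      ∃ G : AnalyticGerm A ℓ (ModularCurve.JZero N), HasUnramifiedCentres G

/-! ### orders closed under the Hopf operations -/

/-- An `R`-order of `Map_U(Γ, ℚ̄)` closed under comultiplication and antipode. -/
structure HopfOrder (A : ValuationSubring Qb) (ℓ : ℕ) (R : Subring Qb) (U : Subgroup GQ)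
    {J : Type} [AddCommGroup J] [DistribMulAction GQ J] (Γ : AddSubgroup J) where
  /-- the order, as a set of functions -/
  H : Set (Γ → Qb)
  one_mem : (fun _ => 1) ∈ H
  add_mem : ∀ φ ∈ H, ∀ ψ ∈ H, (fun x => φ x + ψ x) ∈ H
  mul_mem : ∀ φ ∈ H, ∀ ψ ∈ H, (fun x => φ x * ψ x) ∈ H
  smul_mem : ∀ r ∈ R, ∀ φ ∈ H, (fun x => r * φ x) ∈ H
  /-- equivariance under `U` -/
  equivariant : ∀ φ ∈ H, ∀ σ ∈ U, ∀ (x y : Γ), (y : J) = σ • (x : J) → φ y = σ (φ x)
  /-- integrality -/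
  integral : ∀ φ ∈ H, ∀ x, φ x ∈ A
  /-- fullness -/
  full : ∀ φ : Γ → Qb, (∀ σ ∈ U, ∀ (x y : Γ), (y : J) = σ • (x : J) → φ y = σ (φ x)) →
    ∃ n : ℕ, (fun x => ((ℓ : ℕ) : Qb) ^ n * φ x) ∈ H
  /-- comultiplication: `Δφ ∈ H ⊗ H` -/
  comul : ∀ φ ∈ H, ∃ (n : ℕ) (ψ ψ' : Fin n → Γ → Qb), (∀ i, ψ i ∈ H) ∧ (∀ i, ψ' i ∈ H) ∧
    ∀ x y : Γ, φ (x + y) = ∑ i, ψ i x * ψ' i y
  /-- antipode -/
  antipode : ∀ φ ∈ H, (fun x => φ (-x)) ∈ H

/-- stability under the semilinear action of the decomposition group -/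
def HopfOrder.StableUnder {A : ValuationSubring Qb} {ℓ : ℕ} {R : Subring Qb} {U : Subgroup GQ}
    {J : Type} [AddCommGroup J] [DistribMulAction GQ J] {Γ : AddSubgroup J}
    (O : HopfOrder A ℓ R U Γ) (D : Subgroup GQ) : Prop :=
  ∀ σ ∈ D, ∀ φ ∈ O.H, ∀ ψ : Γ → Qb,
    (∀ x y : Γ, (y : J) = σ • (x : J) → ψ y = σ (φ x)) → ψ ∈ O.H

/-- hypotheses on the finite Galois module `Γ` -/
structure IsFiniteGaloisSubmodule {J : Type} [AddCommGroup J] [DistribMulAction GQ J]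
    (Γ : AddSubgroup J) : Prop where
  finite : Finite Γ
  stable : ∀ σ : GQ, ∀ x ∈ Γ, σ • x ∈ Γ
  /-- the action is continuous: every point is fixed by an open subgroup -/
  open_stab : ∀ x ∈ Γ, ∃ E : IntermediateField ℚ Qb, FiniteDimensional ℚ E ∧
    ∀ σ : GQ, (∀ e ∈ E, σ e = e) → σ • x = x

/-- **FF-F** (uses FF-An): the `A0`-order of `A0`-analytic functions. -/
def OrderStmt : Prop :=
  ∀ (ℓ : ℕ) [Fact ℓ.Prime] (A : ValuationSubring Qb), A.LiesOverPrime ℓ →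
    ∀ (J : Type) [AddCommGroup J] [DistribMulAction GQ J] (G : AnalyticGerm A ℓ J),
      HasUnramifiedCentres G → ∀ Γ : AddSubgroup J, IsFiniteGaloisSubmodule Γ →
        ∃ O : HopfOrder A ℓ (A0 A) (IA A) Γ, O.StableUnder (DA A)

/-- **FF-G**: descent `A0 → A ∩ ℚ̄^D → ℤ_(ℓ)`. -/
def DescentStmt : Prop :=
  ∀ (ℓ : ℕ) [Fact ℓ.Prime] (A : ValuationSubring Qb), A.LiesOverPrime ℓ →
    ∀ (J : Type) [AddCommGroup J] [DistribMulAction GQ J] (Γ : AddSubgroup J),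
      IsFiniteGaloisSubmodule Γ →
      ∀ O : HopfOrder A ℓ (A0 A) (IA A) Γ, O.StableUnder (DA A) →
        Nonempty (HopfOrder A ℓ (RQ ℓ) ⊤ Γ)

/-- the conclusion of S19 for a finite Galois module `Γ` -/
def HopfConclusion (ℓ : ℕ) {J : Type} [AddCommGroup J] [DistribMulAction GQ J]
    (Γ : AddSubgroup J) : Prop :=
  ∃ (H : Type) (_ : CommRing H) (_ : HopfAlgebra (GaloisRep.ratLocalizedAt ℓ) H),
    Module.Finite (GaloisRep.ratLocalizedAt ℓ) H ∧ Module.Flat (GaloisRep.ratLocalizedAt ℓ) H ∧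
    Coalgebra.IsCocomm (GaloisRep.ratLocalizedAt ℓ) H ∧
    ∃ e : WithConv (H →ₐ[GaloisRep.ratLocalizedAt ℓ] Qb) ≃ Γ,
      (∀ f g, e (f * g) = e f + e g) ∧
      ∀ (σ : GQ) (f g : WithConv (H →ₐ[GaloisRep.ratLocalizedAt ℓ] Qb)),
        (∀ h : H, g h = σ (f h)) → ((e g : Γ) : J) = σ • ((e f : Γ) : J)

/-- **FF-H**: a Hopf order over `ℤ_(ℓ)` gives the Hopf algebra. -/
def PackStmt : Prop :=
  ∀ (ℓ : ℕ) [Fact ℓ.Prime] (A : ValuationSubring Qb), A.LiesOverPrime ℓ →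
    ∀ (J : Type) [AddCommGroup J] [DistribMulAction GQ J] (Γ : AddSubgroup J),
      IsFiniteGaloisSubmodule Γ → HopfOrder A ℓ (RQ ℓ) ⊤ Γ → HopfConclusion ℓ Γ

/-- **FF-S (sub)**: Hopf orders pass to Galois-stable subgroups (image of the order). -/
def SubStmt : Prop :=
  ∀ (ℓ : ℕ) [Fact ℓ.Prime] (A : ValuationSubring Qb), A.LiesOverPrime ℓ →
    ∀ (J : Type) [AddCommGroup J] [DistribMulAction GQ J] (Γ Γ' : AddSubgroup J),
      IsFiniteGaloisSubmodule Γ → IsFiniteGaloisSubmodule Γ' → Γ' ≤ Γ →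
      HopfOrder A ℓ (RQ ℓ) ⊤ Γ → Nonempty (HopfOrder A ℓ (RQ ℓ) ⊤ Γ')

/-- **FF-S (quotient)**: Hopf orders pass to equivariant quotients (saturated intersection). -/
def QuotStmt : Prop :=
  ∀ (ℓ : ℕ) [Fact ℓ.Prime] (A : ValuationSubring Qb), A.LiesOverPrime ℓ →
    ∀ (J J' : Type) [AddCommGroup J] [DistribMulAction GQ J] [AddCommGroup J']
      [DistribMulAction GQ J'] (Γ : AddSubgroup J) (Γ' : AddSubgroup J'),
      IsFiniteGaloisSubmodule Γ → IsFiniteGaloisSubmodule Γ' →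
      ∀ f : Γ →+ Γ', Function.Surjective f →
        (∀ (σ : GQ) (x y : Γ), (y : J) = σ • (x : J) → ((f y : Γ') : J') = σ • ((f x : Γ') : J')) →
        HopfOrder A ℓ (RQ ℓ) ⊤ Γ → Nonempty (HopfOrder A ℓ (RQ ℓ) ⊤ Γ')

/-- **FF-S (product)**. -/
def ProdStmt : Prop :=
  ∀ (ℓ : ℕ) [Fact ℓ.Prime] (A : ValuationSubring Qb), A.LiesOverPrime ℓ →
    ∀ (J J' : Type) [AddCommGroup J] [DistribMulAction GQ J] [AddCommGroup J']
      [DistribMulAction GQ J'] (Γ : AddSubgroup J) (Γ' : AddSubgroup J'),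
      IsFiniteGaloisSubmodule Γ → IsFiniteGaloisSubmodule Γ' →
      HopfOrder A ℓ (RQ ℓ) ⊤ Γ → HopfOrder A ℓ (RQ ℓ) ⊤ Γ' →
      Nonempty (HopfOrder A ℓ (RQ ℓ) ⊤ (Γ.prod Γ'))

/-- the `m`-torsion of `J₀(N)` as an additive subgroup -/
def tors (N : ℕ) [NeZero N] (m : ℤ) : AddSubgroup (ModularCurve.JZero N) :=
  (Submodule.torsionBy ℤ (ModularCurve.JZero N) m).toAddSubgroup

/-- **FF-T (torsion facts, from S29lib)**: `J₀(N)[m]` is a finite continuous Galois module. -/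
def TorsStmt : Prop :=
  ∀ (N : ℕ) [NeZero N] (m : ℤ), m ≠ 0 → IsFiniteGaloisSubmodule (tors N m)

/-- **FF-T (transfer)**: `J₀(N)[ℓ^k]` is an equivariant quotient of a Galois-stable subgroup of
`J₀(N')[ℓ^k']`, `N ∣ N'` (push-forward along the degeneracy map; `π_* π^* = deg`). -/
def TransferStmt : Prop :=
  ∀ (N N' : ℕ) [NeZero N] [NeZero N'], N ∣ N' → ∀ (ℓ : ℕ) [Fact ℓ.Prime] (k : ℕ),
    ∃ (k' : ℕ) (M : AddSubgroup (ModularCurve.JZero N')), M ≤ tors N' ((ℓ : ℤ) ^ k') ∧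
      (∀ σ : GQ, ∀ x ∈ M, σ • x ∈ M) ∧
      ∃ f : M →+ tors N ((ℓ : ℤ) ^ k), Function.Surjective f ∧
        ∀ (σ : GQ) (x y : M), (y : ModularCurve.JZero N') = σ • (x : ModularCurve.JZero N') →
          ((f y : tors N ((ℓ : ℤ) ^ k)) : ModularCurve.JZero N) =
            σ • ((f x : tors N ((ℓ : ℤ) ^ k)) : ModularCurve.JZero N)

/-- the algebraic half of S19 -/
theorem hopfConclusion_of_germ (hF : OrderStmt) (hG : DescentStmt) (hH : PackStmt)
    (ℓ : ℕ) [Fact ℓ.Prime] (A : ValuationSubring Qb) (hA : A.LiesOverPrime ℓ)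
    (J : Type) [AddCommGroup J] [DistribMulAction GQ J] (G : AnalyticGerm A ℓ J)
    (hc : HasUnramifiedCentres G) (Γ : AddSubgroup J) (hΓ : IsFiniteGaloisSubmodule Γ) :
    HopfConclusion ℓ Γ := by
  obtain ⟨O, hO⟩ := hF ℓ A hA J G hc Γ hΓ
  obtain ⟨O'⟩ := hG ℓ A hA J Γ hΓ O hO
  exact hH ℓ A hA J Γ hΓ O'

/-- a Galois-stable subgroup of a finite continuous Galois module is one -/
theorem IsFiniteGaloisSubmodule.of_le {J : Type} [AddCommGroup J] [DistribMulAction GQ J]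
    {Γ M : AddSubgroup J} (hΓ : IsFiniteGaloisSubmodule Γ) (hM : M ≤ Γ)
    (hst : ∀ σ : GQ, ∀ x ∈ M, σ • x ∈ M) : IsFiniteGaloisSubmodule M where
  finite := by
    have := hΓ.finite
    exact Finite.of_injective (fun x : M => (⟨x.1, hM x.2⟩ : Γ))
      (fun x y h => Subtype.ext (congrArg (fun z : Γ => (z : J)) h))
  stable := hst
  open_stab := fun x hx => hΓ.open_stab x (hM hx)

/-- **S19 from the block statements** (the assembly FF-I instantiates the hypotheses). -/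
theorem hopfConclusion_tors (hGeom : GeomStmt) (hF : OrderStmt) (hG : DescentStmt) (hH : PackStmt)
    (hT : TorsStmt)
    (hA : ∀ ℓ : ℕ, ℓ.Prime → ∃ A : ValuationSubring Qb, A.LiesOverPrime ℓ)
    (N : ℕ) [NeZero N] (ℓ : ℕ) [Fact ℓ.Prime] (hℓN : ¬ ℓ ∣ N) (k : ℕ) :
    HopfConclusion ℓ (tors N ((ℓ : ℤ) ^ k)) := by
  have hℓ : ℓ.Prime := Fact.out
  obtain ⟨A, hAℓ⟩ := hA ℓ hℓ
  obtain ⟨Gm, hc⟩ := hGeom N ℓ hℓN A hAℓ
  have hΓ : IsFiniteGaloisSubmodule (tors N ((ℓ : ℤ) ^ k)) :=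
    hT N _ (pow_ne_zero _ (by exact_mod_cast hℓ.ne_zero))
  exact hopfConclusion_of_germ hF hG hH ℓ A hAℓ _ Gm hc _ hΓ

end Fermat.Agent.S19lib

end
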